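/-
T14 / SI / KL: if the classes of the primes in `S` generate the class group, every nonzero ideal is
`(c₂/c₁) ∏_{v ∈ S} v^(n_v)` with natural exponents `n_v`.
-/
import Fermat.Agent.S14.Defs

set_option autoImplicit false
set_option linter.unusedSectionVars false

open NumberField IsDedekindDomain nonZeroDivisors

namespace Fermat.Agent.S14.SI.KL

variable {K : Type*} [Field K] [NumberField K]

/-- `∏_{v ∈ S} v^(n_v)` as a nonzero ideal. -/
noncomputable def prodIdeal (S : Finset (HeightOneSpectrum (𝓞 K)))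
    (n : HeightOneSpectrum (𝓞 K) → ℕ) : (Ideal (𝓞 K))⁰ :=
  ∏ v ∈ S, (⟨v.asIdeal, mem_nonZeroDivisors_of_ne_zero v.ne_bot⟩ : (Ideal (𝓞 K))⁰) ^ n v

theorem coe_prodIdeal (S : Finset (HeightOneSpectrum (𝓞 K)))
    (n : HeightOneSpectrum (𝓞 K) → ℕ) :
    ((prodIdeal S n : (Ideal (𝓞 K))⁰) : Ideal (𝓞 K)) = ∏ v ∈ S, v.asIdeal ^ n v := by
  unfold prodIdeal
  rw [Submonoid.coe_finsetProd]
  rfl

theorem prodIdeal_mul (S : Finset (HeightOneSpectrum (𝓞 K)))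
    (n m : HeightOneSpectrum (𝓞 K) → ℕ) :
    prodIdeal S n * prodIdeal S m = prodIdeal S (n + m) := by
  unfold prodIdeal
  rw [← Finset.prod_mul_distrib]
  exact Finset.prod_congr rfl (fun v _ => (pow_add _ _ _).symm)

theorem prodIdeal_pow (S : Finset (HeightOneSpectrum (𝓞 K)))
    (n : HeightOneSpectrum (𝓞 K) → ℕ) (k : ℕ) :
    prodIdeal S n ^ k = prodIdeal S (k • n) := by
  unfold prodIdeal
  rw [← Finset.prod_pow]
  refine Finset.prod_congr rfl (fun v _ => ?_)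
  rw [← pow_mul, Pi.smul_apply, smul_eq_mul, mul_comm]

/-- The classes of the ideals `∏_{v ∈ S} v^(n_v)` form a subgroup of the class group. -/
noncomputable def prodSubgroup (S : Finset (HeightOneSpectrum (𝓞 K))) :
    Subgroup (ClassGroup (𝓞 K)) where
  carrier := {c | ∃ n : HeightOneSpectrum (𝓞 K) → ℕ, c = ClassGroup.mk0 (prodIdeal S n)}
  mul_mem' := by
    rintro _ _ ⟨n, rfl⟩ ⟨m, rfl⟩
    exact ⟨n + m, by rw [← map_mul, prodIdeal_mul]⟩
  one_mem' := ⟨0, by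
    have : prodIdeal S (0 : HeightOneSpectrum (𝓞 K) → ℕ) = 1 := by
      unfold prodIdeal; simp
    rw [this, map_one]⟩
  inv_mem' := by
    rintro _ ⟨n, rfl⟩
    refine ⟨(Fintype.card (ClassGroup (𝓞 K)) - 1) • n, ?_⟩
    rw [← prodIdeal_pow, map_pow, inv_eq_iff_mul_eq_one, ← pow_succ']
    have hpos : 0 < Fintype.card (ClassGroup (𝓞 K)) := Fintype.card_pos
    rw [Nat.sub_add_cancel hpos]
    exact pow_card_eq_one

/-- If the classes of the primes of `S` generate the class group, every nonzero ideal `𝔞` satisfies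
`(c₁) 𝔞 = (c₂) ∏_{v∈S} v^(n_v)`. -/
theorem exists_eq_prod_of_closure_eq_top (S : Finset (HeightOneSpectrum (𝓞 K)))
    (hScl : Subgroup.closure (Set.range fun v : S =>
        ClassGroup.mk0 ⟨v.1.asIdeal, mem_nonZeroDivisors_of_ne_zero v.1.ne_bot⟩) = ⊤)
    (𝔞 : Ideal (𝓞 K)) (h𝔞 : 𝔞 ≠ ⊥) :
    ∃ (n : HeightOneSpectrum (𝓞 K) → ℕ) (c₁ c₂ : 𝓞 K), c₁ ≠ 0 ∧ c₂ ≠ 0 ∧
      Ideal.span {c₁} * 𝔞 = Ideal.span {c₂} * ∏ v ∈ S, v.asIdeal ^ n v := by
  classical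
  have hle : Subgroup.closure (Set.range fun v : S =>
      ClassGroup.mk0 ⟨v.1.asIdeal, mem_nonZeroDivisors_of_ne_zero v.1.ne_bot⟩) ≤ prodSubgroup S := by
    rw [Subgroup.closure_le]
    rintro _ ⟨v, rfl⟩
    refine ⟨fun w => if w = v.1 then 1 else 0, ?_⟩
    have e : prodIdeal S (fun w => if w = v.1 then 1 else 0) =
        (⟨v.1.asIdeal, mem_nonZeroDivisors_of_ne_zero v.1.ne_bot⟩ : (Ideal (𝓞 K))⁰) := by
      unfold prodIdeal
      rw [Finset.prod_eq_single_of_mem v.1 v.2]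
      · simp
      · intro w _ hw
        simp [hw]
    change ClassGroup.mk0 _ = ClassGroup.mk0 _
    rw [e]
  rw [hScl] at hle
  obtain ⟨n, hn⟩ := hle (Subgroup.mem_top (ClassGroup.mk0 ⟨𝔞, mem_nonZeroDivisors_of_ne_zero h𝔞⟩))
  obtain ⟨c₁, c₂, hc₁, hc₂, e⟩ := ClassGroup.mk0_eq_mk0_iff.mp hn
  refine ⟨n, c₁, c₂, hc₁, hc₂, ?_⟩
  rw [← coe_prodIdeal]
  exact e

end Fermat.Agent.S14.SI.KL
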