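/-
T14 / SI / KL: an integral `S`-supported element with large valuation at `S`, making an `S`-unit
integral after multiplication by a `p`-th power; comparison of valuations from an ideal equation.
-/
import Fermat.Agent.S14.SI.KL.Class

set_option autoImplicit false
set_option linter.unusedSectionVars false

open NumberField IsDedekindDomain nonZeroDivisors WithZero

namespace Fermat.Agent.S14.SI.KL

variable {K : Type*} [Field K] [NumberField K]

/-- A nonzero integer lying in every prime of `S` and in no other prime. -/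
theorem exists_generator_prod_pow (S : Finset (HeightOneSpectrum (𝓞 K))) :
    ∃ g : 𝓞 K, g ≠ 0 ∧ (∀ w ∈ S, g ∈ w.asIdeal) ∧
      ∀ q : HeightOneSpectrum (𝓞 K), q ∉ S → g ∉ q.asIdeal := by
  classical
  set I : (Ideal (𝓞 K))⁰ := prodIdeal S (fun _ => 1) with hI
  have hIcoe : (I : Ideal (𝓞 K)) = ∏ w ∈ S, w.asIdeal := by
    rw [hI, coe_prodIdeal]; simp
  set h := Fintype.card (ClassGroup (𝓞 K)) with hh
  have hpos : 0 < h := Fintype.card_pos
  have h1 : ClassGroup.mk0 (I ^ h) = 1 := by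
    rw [map_pow]; exact pow_card_eq_one
  have hprinc : ((I ^ h : (Ideal (𝓞 K))⁰) : Ideal (𝓞 K)).IsPrincipal :=
    (ClassGroup.mk0_eq_one_iff (I ^ h).2).mp h1
  obtain ⟨g, hg⟩ := hprinc.principal
  rw [SubmonoidClass.coe_pow, hIcoe, Ideal.submodule_span_eq] at hg
  have hne : (∏ w ∈ S, w.asIdeal) ^ h ≠ ⊥ := by
    rw [← hIcoe, ← SubmonoidClass.coe_pow]
    exact nonZeroDivisors.ne_zero (I ^ h).2
  refine ⟨g, ?_, ?_, ?_⟩
  · rintro rfl
    apply hne
    rw [hg]; simp
  · intro w hw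
    have h1 : (∏ w ∈ S, w.asIdeal) ^ h ≤ w.asIdeal := by
      apply Ideal.le_of_dvd
      exact dvd_trans (Finset.dvd_prod_of_mem _ hw) (dvd_pow_self _ hpos.ne')
    apply h1
    rw [hg]; exact Ideal.mem_span_singleton_self g
  · intro q hq hmem
    have h1 : (∏ w ∈ S, w.asIdeal) ^ h ≤ q.asIdeal := by
      rw [hg, Ideal.span_singleton_le_iff_mem]; exact hmem
    have h2 : ∏ w ∈ S, w.asIdeal ≤ q.asIdeal := q.isPrime.le_of_pow_le h1
    obtain ⟨w, hw, hwq⟩ := (q.isPrime.prod_le).mp h2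
    have : w = q := HeightOneSpectrum.ext (w.isMaximal.eq_of_le q.isPrime.ne_top hwq)
    exact hq (this ▸ hw)

/-- Multiplying an `S`-unit by a large power of `g` (an integer lying in all primes of `S`)
gives an integer. -/
theorem exists_integral_mul_pow (S : Finset (HeightOneSpectrum (𝓞 K))) (u : Kˣ)
    (hu : u ∈ (S : Set (HeightOneSpectrum (𝓞 K))).unit K) (g : 𝓞 K)
    (hgS : ∀ w ∈ S, g ∈ w.asIdeal) {p : ℕ} (hp : 0 < p) :
    ∃ (M : ℕ) (e : 𝓞 K), (e : K) = (u : K) * (g : K) ^ (p * M) := by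
  classical
  -- for each `w`, a bound
  have hbound : ∀ w : HeightOneSpectrum (𝓞 K), ∃ k : ℕ,
      exp (-(k : ℤ)) < (w.valuation K (u : K))⁻¹ := by
    intro w
    apply exists_exp_neg_natCast_lt
    exact inv_ne_zero ((Valuation.ne_zero_iff _).mpr u.ne_zero)
  choose k hk using hbound
  refine ⟨S.sup k, ?_⟩
  have hint : ∀ w : HeightOneSpectrum (𝓞 K),
      w.valuation K ((u : K) * (g : K) ^ (p * S.sup k)) ≤ 1 := by
    intro w
    rw [map_mul, map_pow]
    have hg1 : w.valuation K (g : K) ≤ 1 := w.valuation_le_one g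
    by_cases hw : w ∈ S
    · have hgw : w.valuation K (g : K) ≤ exp (-(1 : ℤ)) := by
        have := (w.intValuation_le_pow_iff_mem g 1).mpr (by rw [pow_one]; exact hgS w hw)
        rw [← w.valuation_of_algebraMap (K := K)] at this
        simpa using this
      have h1 : w.valuation K (g : K) ^ (p * S.sup k) ≤ exp (-(k w : ℤ)) := by
        calc w.valuation K (g : K) ^ (p * S.sup k)
            ≤ exp (-(1 : ℤ)) ^ (p * S.sup k) := pow_le_pow_left₀ zero_le hgw _
          _ = exp (-((p * S.sup k : ℕ) : ℤ)) := by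
              rw [← exp_nsmul]; simp
          _ ≤ exp (-(k w : ℤ)) := by
              rw [exp_le_exp, neg_le_neg_iff]
              have h2 : k w ≤ S.sup k := Finset.le_sup hw
              have h3 : S.sup k ≤ p * S.sup k := Nat.le_mul_of_pos_left _ hp
              exact_mod_cast h2.trans h3
      have hu0 : w.valuation K (u : K) ≠ 0 := (Valuation.ne_zero_iff _).mpr u.ne_zero
      have h2 : w.valuation K (g : K) ^ (p * S.sup k) < (w.valuation K (u : K))⁻¹ :=
        lt_of_le_of_lt h1 (hk w)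
      have h3 : w.valuation K (u : K) * w.valuation K (g : K) ^ (p * S.sup k) <
          w.valuation K (u : K) * (w.valuation K (u : K))⁻¹ :=
        mul_lt_mul_of_pos_left h2 (zero_lt_iff.mpr hu0)
      rw [mul_inv_cancel₀ hu0] at h3
      exact h3.le
    · have hu1 : w.valuation K (u : K) = 1 := hu w (by simpa using hw)
      rw [hu1, one_mul]
      exact pow_le_one₀ zero_le hg1
  obtain ⟨e, he⟩ := HeightOneSpectrum.mem_integers_of_valuation_le_one K _ hint
  exact ⟨e, he⟩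

/-- Comparison of valuations from an equation of ideals. -/
theorem intValuation_eq_of_mul_eq (v : HeightOneSpectrum (𝓞 K)) {c₁ c₂ : 𝓞 K} (hc₁ : c₁ ≠ 0)
    (hc₂ : c₂ ≠ 0) {𝔞 𝔰 : Ideal (𝓞 K)} (h𝔞 : ¬ 𝔞 ≤ v.asIdeal) (h𝔰 : ¬ 𝔰 ≤ v.asIdeal)
    (h : Ideal.span {c₁} * 𝔞 = Ideal.span {c₂} * 𝔰) :
    v.intValuation c₁ = v.intValuation c₂ := by
  have hv : Prime v.asIdeal := v.prime
  have h𝔞' : ¬ v.asIdeal ∣ 𝔞 := fun hd => h𝔞 (Ideal.le_of_dvd hd)
  have h𝔰' : ¬ v.asIdeal ∣ 𝔰 := fun hd => h𝔰 (Ideal.le_of_dvd hd)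
  have key : ∀ k : ℕ, v.asIdeal ^ k ∣ Ideal.span {c₁} ↔ v.asIdeal ^ k ∣ Ideal.span {c₂} := by
    intro k
    constructor
    · intro hd
      have : v.asIdeal ^ k ∣ Ideal.span {c₂} * 𝔰 := h ▸ Dvd.dvd.mul_right hd 𝔞
      exact hv.pow_dvd_of_dvd_mul_right k h𝔰' this
    · intro hd
      have : v.asIdeal ^ k ∣ Ideal.span {c₁} * 𝔞 := h.symm ▸ Dvd.dvd.mul_right hd 𝔰
      exact hv.pow_dvd_of_dvd_mul_right k h𝔞' this
  have e₁ := v.intValuation_eq_exp_neg_multiplicity hc₁
  have e₂ := v.intValuation_eq_exp_neg_multiplicity hc₂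
  apply le_antisymm
  · rw [e₂, v.intValuation_le_pow_iff_dvd, key, ← v.intValuation_le_pow_iff_dvd, e₂]
  · rw [e₁, v.intValuation_le_pow_iff_dvd, ← key, ← v.intValuation_le_pow_iff_dvd, e₁]

/-- The ideal `∏_{w ∈ S} w^(n_w)` is not contained in a prime outside `S`. -/
theorem prod_pow_not_le (S : Finset (HeightOneSpectrum (𝓞 K)))
    (n : HeightOneSpectrum (𝓞 K) → ℕ) (q : HeightOneSpectrum (𝓞 K)) (hq : q ∉ S) :
    ¬ ∏ w ∈ S, w.asIdeal ^ n w ≤ q.asIdeal := by
  intro hle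
  obtain ⟨w, hw, hwq⟩ := (q.isPrime.prod_le).mp hle
  have h1 : w.asIdeal ≤ q.asIdeal := q.isPrime.le_of_pow_le hwq
  have : w = q := HeightOneSpectrum.ext (w.isMaximal.eq_of_le q.isPrime.ne_top h1)
  exact hq (this ▸ hw)

end Fermat.Agent.S14.SI.KL
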