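/-
T14 / SI / KL (helper lemmas for the Key Lemma): dictionary between the finite-level local
conditions of `SI/Defs.lean` and the adic valuations of Mathlib, simultaneous representation of a
number which is a unit at finitely many primes, and `p`-th power residues.
-/
import Fermat.Agent.S14.SI.Defs

set_option autoImplicit false
set_option linter.unusedSectionVars false

open NumberField IsDedekindDomain

namespace Fermat.Agent.S14.SI.KL

variable {K : Type*} [Field K] [NumberField K]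

/-- `x` is a unit at `v` iff its `v`-adic valuation is `1`. -/
theorem isUnitAt_iff (v : HeightOneSpectrum (𝓞 K)) (x : Kˣ) :
    IsUnitAt v.asIdeal x ↔ v.valuation K (x : K) = 1 := by
  constructor
  · rintro ⟨a, b, ha, hb, -, h⟩
    have h1 : v.valuation K (algebraMap (𝓞 K) K a) = 1 :=
      (v.valuation_eq_one_iff_notMem (K := K)).mpr ha
    have h2 : v.valuation K (algebraMap (𝓞 K) K b) = 1 :=
      (v.valuation_eq_one_iff_notMem (K := K)).mpr hb
    have h3 := congrArg (v.valuation K) h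
    rw [map_mul] at h3
    change _ * v.valuation K (algebraMap (𝓞 K) K b) = v.valuation K (algebraMap (𝓞 K) K a) at h3
    rwa [h1, h2, mul_one] at h3
  · intro hx
    obtain ⟨n, d, hnd⟩ := v.exists_primeCompl_mul_eq_of_integer (x : K) hx.le
    refine ⟨n, d, ?_, d.2, by simp, hnd⟩
    rw [← v.valuation_eq_one_iff_notMem (K := K), ← hnd, map_mul, hx, one_mul]
    exact (v.valuation_eq_one_iff_notMem (K := K)).mpr d.2

theorem OneModPow.isUnitAt {v : Ideal (𝓞 K)} {n : ℕ} {x : Kˣ} (h : OneModPow v n x) :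
    IsUnitAt v x := by
  obtain ⟨a, b, ha, hb, -, h⟩ := h
  exact ⟨a, b, ha, hb, by simp, h⟩

theorem isUnitAt_mul {v : HeightOneSpectrum (𝓞 K)} {x y : Kˣ} (hx : IsUnitAt v.asIdeal x)
    (hy : IsUnitAt v.asIdeal y) : IsUnitAt v.asIdeal (x * y) :=
  OneModPow.mul hx hy

theorem isUnitAt_inv {v : HeightOneSpectrum (𝓞 K)} {x : Kˣ} (hx : IsUnitAt v.asIdeal x) :
    IsUnitAt v.asIdeal x⁻¹ :=
  OneModPow.inv hx

theorem isUnitAt_div {v : HeightOneSpectrum (𝓞 K)} {x y : Kˣ} (hx : IsUnitAt v.asIdeal x)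
    (hy : IsUnitAt v.asIdeal y) : IsUnitAt v.asIdeal (x / y) := by
  rw [div_eq_mul_inv]; exact isUnitAt_mul hx (isUnitAt_inv hy)

theorem isUnitAt_pow {v : HeightOneSpectrum (𝓞 K)} {x : Kˣ} (hx : IsUnitAt v.asIdeal x) (n : ℕ) :
    IsUnitAt v.asIdeal (x ^ n) := by
  induction n with
  | zero => rw [pow_zero]; exact oneModPow_one _ _
  | succ k ih => rw [pow_succ]; exact isUnitAt_mul ih hx

/-- If `x ^ n` is a unit at `v` (`n ≠ 0`) then so is `x`. -/
theorem isUnitAt_of_pow {v : HeightOneSpectrum (𝓞 K)} {x : Kˣ} {n : ℕ} (hn : n ≠ 0)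
    (hx : IsUnitAt v.asIdeal (x ^ n)) : IsUnitAt v.asIdeal x := by
  rw [isUnitAt_iff] at hx ⊢
  rw [Units.val_pow_eq_pow_val, map_pow] at hx
  exact (pow_eq_one_iff_of_nonneg zero_le hn).mp hx

/-- An element of the ring of integers, as a unit of `K`. -/
theorem coe_injective' {a b : 𝓞 K} (h : (a : K) = (b : K)) : a = b :=
  RingOfIntegers.coe_injective h

/-- A number which is a unit at the finitely many primes of `R` is a quotient `y₁ / y₂` of
integers which are both prime to all primes of `R`. -/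
theorem exists_rep_of_isUnitAt (R : Finset (HeightOneSpectrum (𝓞 K))) (y : Kˣ)
    (hy : ∀ v ∈ R, IsUnitAt v.asIdeal y) :
    ∃ y₁ y₂ : 𝓞 K, y₁ ≠ 0 ∧ y₂ ≠ 0 ∧ (y : K) * (y₂ : K) = (y₁ : K) ∧
      ∀ v ∈ R, y₁ ∉ v.asIdeal ∧ y₂ ∉ v.asIdeal := by
  classical
  -- the ideal of denominators
  let 𝔠 : Ideal (𝓞 K) :=
    { carrier := {d | ∃ n : 𝓞 K, (y : K) * (d : K) = (n : K)}
      add_mem' := by
        rintro d d' ⟨n, hn⟩ ⟨n', hn'⟩
        exact ⟨n + n', by push_cast; linear_combination hn + hn'⟩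
      zero_mem' := ⟨0, by simp⟩
      smul_mem' := by
        rintro c d ⟨n, hn⟩
        refine ⟨c * n, ?_⟩
        rw [smul_eq_mul]; push_cast; linear_combination (c : K) * hn }
  have h𝔠 : ∀ d, d ∈ 𝔠 ↔ ∃ n : 𝓞 K, (y : K) * (d : K) = (n : K) := fun d => Iff.rfl
  -- the conclusion from a good denominator
  have key : ∀ y₂ ∈ 𝔠, y₂ ≠ 0 → (∀ v ∈ R, y₂ ∉ v.asIdeal) →
      ∃ y₁ y₂ : 𝓞 K, y₁ ≠ 0 ∧ y₂ ≠ 0 ∧ (y : K) * (y₂ : K) = (y₁ : K) ∧
        ∀ v ∈ R, y₁ ∉ v.asIdeal ∧ y₂ ∉ v.asIdeal := by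
    intro y₂ hy₂ hy₂0 hy₂R
    obtain ⟨y₁, hy₁⟩ := (h𝔠 y₂).mp hy₂
    refine ⟨y₁, y₂, ?_, hy₂0, hy₁, fun v hv => ⟨?_, hy₂R v hv⟩⟩
    · rintro rfl
      have : (y : K) * (y₂ : K) = 0 := by rw [hy₁]; simp
      rcases mul_eq_zero.mp this with h | h
      · exact y.ne_zero h
      · exact hy₂0 (coe_injective' (by simpa using h))
    · obtain ⟨a, b, ha, hb, -, hab⟩ := hy v hv
      intro hmem
      have e : y₁ * b = a * y₂ := by
        have eK : (y₁ : K) * (b : K) = (a : K) * (y₂ : K) := by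
          linear_combination (-(b : K)) * hy₁ + (y₂ : K) * hab
        exact_mod_cast eK
      have : a * y₂ ∈ v.asIdeal := e ▸ Ideal.mul_mem_right _ _ hmem
      rcases v.isPrime.mem_or_mem this with h | h
      · exact ha h
      · exact hy₂R v hv h
  by_cases hR : R.Nonempty
  · obtain ⟨v₀, hv₀⟩ := hR
    have hnot : ¬ ((𝔠 : Set (𝓞 K)) ⊆ ⋃ v ∈ (R : Set (HeightOneSpectrum (𝓞 K))), (v.asIdeal : Set (𝓞 K))) := by
      rw [Ideal.subset_union_prime (s := R) (f := fun v => v.asIdeal) v₀ v₀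
        (fun v _ _ _ => v.isPrime)]
      rintro ⟨v, hv, hle⟩
      obtain ⟨a, b, ha, hb, -, hab⟩ := hy v hv
      exact hb (hle ((h𝔠 b).mpr ⟨a, hab⟩))
    rw [Set.not_subset] at hnot
    obtain ⟨y₂, hy₂, hy₂R⟩ := hnot
    have hy₂R' : ∀ v ∈ R, y₂ ∉ v.asIdeal := by
      intro v hv hmem
      apply hy₂R
      simp only [Set.mem_iUnion]
      exact ⟨v, hv, hmem⟩
    refine key y₂ hy₂ ?_ hy₂R'
    rintro rfl
    exact hy₂R' v₀ hv₀ (Ideal.zero_mem _)
  · rw [Finset.not_nonempty_iff_eq_empty] at hR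
    subst hR
    obtain ⟨a, b, hb, hab⟩ := IsFractionRing.div_surjective (A := 𝓞 K) (y : K)
    have hb0 : b ≠ 0 := nonZeroDivisors.ne_zero hb
    refine key b ((h𝔠 b).mpr ⟨a, ?_⟩) hb0 (by simp)
    rw [← hab]
    have : (algebraMap (𝓞 K) K b) ≠ 0 := by
      simpa using (map_ne_zero_iff _ (IsFractionRing.injective (𝓞 K) K)).mpr hb0
    change algebraMap (𝓞 K) K a / algebraMap (𝓞 K) K b * algebraMap (𝓞 K) K b = algebraMap (𝓞 K) K a
    field_simp

/-- From a local `p`-th power (precision `1`) to a `p`-th power residue of integers. -/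
theorem exists_pow_residue (v : HeightOneSpectrum (𝓞 K)) {p : ℕ} (hp : p ≠ 0) (y : Kˣ)
    (y₁ y₂ : 𝓞 K) (h₁ : y₁ ∉ v.asIdeal) (h₂ : y₂ ∉ v.asIdeal)
    (h : (y : K) * (y₂ : K) = (y₁ : K)) (hloc : IsLocalPow p v.asIdeal 1 y) :
    ∃ z : 𝓞 K, y₁ - z ^ p * y₂ ∈ v.asIdeal := by
  obtain ⟨w, a, b, ha, hb, hab, he⟩ := hloc
  rw [pow_one] at hab
  -- `w` is a unit at `v`
  have hyu : IsUnitAt v.asIdeal y := ⟨y₁, y₂, h₁, h₂, by simp, h⟩
  have hwu : IsUnitAt v.asIdeal w := by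
    apply isUnitAt_of_pow hp
    have h1 : IsUnitAt v.asIdeal (y / w ^ p) := ⟨a, b, ha, hb, by simp, he⟩
    have : w ^ p = y / (y / w ^ p) := by rw [div_div_cancel]
    rw [this]
    exact isUnitAt_div hyu h1
  obtain ⟨w₁, w₂, hw₁, hw₂, -, hw⟩ := hwu
  -- the integral relation
  have hw₂0 : (w₂ : K) ≠ 0 := by
    intro h0
    apply hw₂
    have : w₂ = 0 := coe_injective' (by simpa using h0)
    rw [this]; exact Ideal.zero_mem _
  have hb0 : (b : K) ≠ 0 := by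
    intro h0
    apply hb
    have : b = 0 := coe_injective' (by simpa using h0)
    rw [this]; exact Ideal.zero_mem _
  have hwK : (w : K) = (w₁ : K) / (w₂ : K) := by
    rw [eq_div_iff hw₂0]; exact hw
  have heK : (y : K) = (w : K) ^ p * ((a : K) / (b : K)) := by
    have : ((y / w ^ p : Kˣ) : K) = (y : K) / (w : K) ^ p := by
      rw [Units.val_div_eq_div_val, Units.val_pow_eq_pow_val]
    rw [this] at he
    have hwp : (w : K) ^ p ≠ 0 := pow_ne_zero _ w.ne_zero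
    field_simp at he ⊢
    linear_combination he
  have hrelK : (y₁ : K) * (w₂ : K) ^ p * (b : K) = (y₂ : K) * (w₁ : K) ^ p * (a : K) := by
    rw [← h, heK, ← hw, mul_pow]
    field_simp
  have hrel : y₁ * w₂ ^ p * b = y₂ * w₁ ^ p * a := by
    exact_mod_cast hrelK
  have hmem : (y₁ * w₂ ^ p - y₂ * w₁ ^ p) * b ∈ v.asIdeal := by
    have : (y₁ * w₂ ^ p - y₂ * w₁ ^ p) * b = y₂ * w₁ ^ p * (a - b) := by
      linear_combination hrel
    rw [this]
    exact Ideal.mul_mem_left _ _ hab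
  have hmem' : y₁ * w₂ ^ p - y₂ * w₁ ^ p ∈ v.asIdeal := by
    rcases v.isPrime.mem_or_mem hmem with h' | h'
    · exact h'
    · exact absurd h' hb
  -- invert `w₂` modulo `v`
  obtain ⟨w₂', i, hi, hinv⟩ := v.isMaximal.exists_inv hw₂
  refine ⟨w₁ * w₂', ?_⟩
  have h1 : w₂' * w₂ - 1 ∈ v.asIdeal := by
    have : w₂' * w₂ - 1 = -i := by linear_combination hinv
    rw [this]; exact Ideal.neg_mem_iff _ |>.mpr hi
  have h2 : (w₂' * w₂) ^ p - 1 ∈ v.asIdeal := by
    obtain ⟨c, hc⟩ := sub_dvd_pow_sub_pow (w₂' * w₂) 1 p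
    rw [one_pow] at hc
    rw [hc]
    exact Ideal.mul_mem_right _ _ h1
  have : y₁ - (w₁ * w₂') ^ p * y₂ =
      w₂' ^ p * (y₁ * w₂ ^ p - y₂ * w₁ ^ p) - y₁ * ((w₂' * w₂) ^ p - 1) := by ring
  rw [this]
  exact Ideal.sub_mem _ (Ideal.mul_mem_left _ _ hmem') (Ideal.mul_mem_left _ _ h2)

end Fermat.Agent.S14.SI.KL
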