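/-
T14 / SI / KL: a root of `X^p - x` in the splitting field, and `K(β) = N` for `[N:K] = p`.
-/
import Mathlib

set_option autoImplicit false
set_option linter.unusedSectionVars false

open Polynomial

namespace Fermat.Agent.S14.SI.KL

variable {K : Type*} [Field K]

theorem exists_root_splittingField {p : ℕ} (hp : 0 < p) (x : K) :
    ∃ β : (X ^ p - C x : K[X]).SplittingField, β ^ p = algebraMap K _ x := by
  have hsplit := SplittingField.splits (X ^ p - C x : K[X])
  have hdeg : (X ^ p - C x : K[X]).degree ≠ 0 := by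
    rw [degree_X_pow_sub_C hp]; exact_mod_cast hp.ne'
  have hdeg' : ((X ^ p - C x : K[X]).map
      (algebraMap K (X ^ p - C x : K[X]).SplittingField)).degree ≠ 0 := by
    rwa [degree_map]
  obtain ⟨β, hβ⟩ := hsplit.exists_eval_eq_zero hdeg'
  refine ⟨β, ?_⟩
  simpa [sub_eq_zero] using hβ

theorem adjoin_eq_top_of_pow_eq {N : Type*} [Field N] [Algebra K N] {p : ℕ} (hp : p.Prime)
    (hdeg : Module.finrank K N = p) (x : K) (hx : ∀ y : K, y ^ p ≠ x) (β : N)
    (hβ : β ^ p = algebraMap K N x) : IntermediateField.adjoin K {β} = ⊤ := by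
  have hsimple := IntermediateField.isSimpleOrder_of_finrank_prime K N (hdeg ▸ hp)
  rcases eq_bot_or_eq_top (IntermediateField.adjoin K {β}) with h | h
  · exfalso
    rw [IntermediateField.adjoin_simple_eq_bot_iff, IntermediateField.mem_bot] at h
    obtain ⟨y, rfl⟩ := h
    rw [← map_pow] at hβ
    exact hx y ((algebraMap K N).injective hβ)
  · exact h

end Fermat.Agent.S14.SI.KL
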