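/-
T14 / SI / KL: ideals that are relative norms.
* `exists_relNorm_eq_of_forall_prime`: an ideal all of whose prime divisors are norms is a norm.
* `exists_prime_relNorm_eq`: a prime of `K` whose decomposition groups in a Galois extension `N/K`
  are trivial is the norm of a prime of `N`.
-/
import Fermat.Agent.S14.Defs

set_option autoImplicit false
set_option linter.unusedSectionVars false

open NumberField IsDedekindDomain
open scoped Pointwise

namespace Fermat.Agent.S14.SI.KL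

variable {K N : Type*} [Field K] [NumberField K] [Field N] [NumberField N] [Algebra K N]

/-- A product of ideals which are norms (of nonzero ideals) is such a norm. -/
theorem exists_relNorm_eq_multiset_prod (M : Multiset (Ideal (𝓞 K)))
    (h : ∀ q ∈ M, ∃ 𝔄 : Ideal (𝓞 N), 𝔄 ≠ ⊥ ∧ Ideal.relNorm (𝓞 K) 𝔄 = q) :
    ∃ 𝔄 : Ideal (𝓞 N), 𝔄 ≠ ⊥ ∧ Ideal.relNorm (𝓞 K) 𝔄 = M.prod := by
  induction M using Multiset.induction_on with
  | empty =>
    refine ⟨⊤, top_ne_bot, ?_⟩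
    rw [Multiset.prod_zero, Ideal.relNorm_top, Ideal.one_eq_top]
  | cons q M ih =>
    obtain ⟨𝔄, h𝔄, e⟩ := ih (fun q' hq' => h q' (Multiset.mem_cons_of_mem hq'))
    obtain ⟨𝔅, h𝔅, e'⟩ := h q (Multiset.mem_cons_self q M)
    refine ⟨𝔅 * 𝔄, ?_, ?_⟩
    · rw [Ne, ← Ideal.zero_eq_bot, mul_eq_zero, not_or]
      exact ⟨h𝔅, h𝔄⟩
    · rw [Multiset.prod_cons, map_mul, e, e']

/-- An ideal all of whose prime divisors are norms of nonzero ideals is a norm. -/
theorem exists_relNorm_eq_of_forall_prime (𝔱 : Ideal (𝓞 K)) (h𝔱 : 𝔱 ≠ ⊥)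
    (h : ∀ q : Ideal (𝓞 K), q.IsPrime → q ≠ ⊥ → 𝔱 ≤ q →
      ∃ 𝔄 : Ideal (𝓞 N), 𝔄 ≠ ⊥ ∧ Ideal.relNorm (𝓞 K) 𝔄 = q) :
    ∃ 𝔄 : Ideal (𝓞 N), 𝔄 ≠ ⊥ ∧ Ideal.relNorm (𝓞 K) 𝔄 = 𝔱 := by
  classical
  have hprod := Ideal.prod_normalizedFactors_eq_self h𝔱
  rw [← hprod]
  apply exists_relNorm_eq_multiset_prod
  intro q hq
  have hq' := UniqueFactorizationMonoid.prime_of_normalized_factor q hq
  apply h q (Ideal.isPrime_of_prime hq') hq'.ne_zero
  exact Ideal.le_of_dvd (UniqueFactorizationMonoid.dvd_of_mem_normalizedFactors hq)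

variable [IsGalois K N]

/-- If the decomposition groups of the primes of `N` above `v` are trivial, `v` is the relative
norm of a prime of `N`. -/
theorem exists_prime_relNorm_eq (v : Ideal (𝓞 K)) [hv : v.IsPrime] (hv0 : v ≠ ⊥)
    (h : ∀ P : Ideal (𝓞 N), P.IsPrime → P ≠ ⊥ → P.under (𝓞 K) = v → ∀ τ : N ≃ₐ[K] N,
      (∀ z : 𝓞 N, z ∈ P → τ • z ∈ P) → τ = 1) :
    ∃ P : Ideal (𝓞 N), P.IsPrime ∧ P ≠ ⊥ ∧ Ideal.relNorm (𝓞 K) P = v := by
  obtain ⟨P, -, hPprime, hPv⟩ := Ideal.exists_ideal_over_prime_of_isIntegral v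
    (⊥ : Ideal (𝓞 N)) (by
      rw [Ideal.comap_bot_of_injective _ (RingOfIntegers.algebraMap.injective K N)]; exact bot_le)
  have hP0 : P ≠ ⊥ := by
    rintro rfl
    rw [Ideal.comap_bot_of_injective _ (RingOfIntegers.algebraMap.injective K N)] at hPv
    exact hv0 hPv.symm
  have : P.LiesOver v := ⟨hPv.symm⟩
  have : v.IsMaximal := hv.isMaximal hv0
  have : P.IsMaximal := hPprime.isMaximal hP0
  refine ⟨P, hPprime, hP0, ?_⟩
  rw [Ideal.relNorm_eq_pow_of_isMaximal P v]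
  -- the inertia degree is one
  have hstab : Nat.card (MulAction.stabilizer (N ≃ₐ[K] N) P) = 1 := by
    rw [Nat.card_eq_one_iff_unique]
    refine ⟨⟨?_⟩, ⟨1⟩⟩
    intro a b
    have key : ∀ τ : MulAction.stabilizer (N ≃ₐ[K] N) P, τ = 1 := by
      intro τ
      have hτ : (τ : N ≃ₐ[K] N) • P = P := τ.2
      have : (τ : N ≃ₐ[K] N) = 1 := by
        apply h P hPprime hP0 hPv
        intro z hz
        have : (τ : N ≃ₐ[K] N) • z ∈ (τ : N ≃ₐ[K] N) • P :=
          Ideal.smul_mem_pointwise_smul _ _ _ hz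
        rwa [hτ] at this
      exact Subtype.ext this
    rw [key a, key b]
  have hcard := Ideal.card_stabilizer_eq_card_inertia_mul_finrank (G := N ≃ₐ[K] N) v P
  rw [hstab] at hcard
  have hf : P.inertiaDeg (𝓞 K) = 1 := Nat.eq_one_of_mul_eq_one_left hcard.symm
  rw [hf, pow_one]

end Fermat.Agent.S14.SI.KL
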